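import Fermat.Agent.Ribet.H943.Row37

/-!
# Row 37 (S38 | S43): the split scalar / non-scalar Frobenius  (helper723)

`Row37.HardCaseStatement` (on main) is level lowering at `q ‖ L` for ALL `q ≡ 1 mod p`, while
Mazur's principle `Spec.MazurPrincipleStatement` / the wall `Spec.AtQOccursStatement` are stated
for `q ≢ 1 mod p` only.  The Ihara-avoidance route treats the case where `ρ̄|_{D_q}` is SCALAR.
The remaining case (`q ≡ 1 mod p`, Frobenius at `q` NOT scalar on `E[p]`) is covered by the proof
of Mazur's principle verbatim: that proof shows that Frobenius acts on `E[p]` through the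
scalar `± q`, and only then uses `det = q` to get `q ≡ 1 mod p`.

This file freezes the two refined interfaces and proves the glue:

* `AtQOccursPlusStatement` / `MazurPrinciplePlusStatement` : exclusion
  `¬ p ∣ q - 1 ∨ ¬ FrobScalarAt P q`;
* `HardScalarStatement` : level lowering under `p ∣ q - 1` AND `FrobScalarAt P q`;
* `hardCase_of_split`, `levelLowering_of_split`, `S43_of_split`, `S43_of_wallqPlus_hardScalar`.

No new mathematics: definitions and logic only.
-/

set_option autoImplicit false
set_option linter.style.haveILetI false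

open WeierstrassCurve WeierstrassCurve.Affine WeierstrassCurve.Affine.Point
open CuspForm ModularFormClass UpperHalfPlane ModularCurve

namespace Fermat.Agent.Ribet.H723

open Fermat.Agent.Ribet Fermat.Agent.Ribet.Spec Fermat.Agent.Ribet.H943

/-- Every Frobenius element at every place over `q` acts on `E[p]` as a scalar. -/
def FrobScalarAt (P : FreyPackage) (q : ℕ) : Prop :=
  ∀ A : ValuationSubring (AlgebraicClosure ℚ), A.LiesOverPrime q →
    ∀ σ : GQ, A.IsFrobeniusAt σ q → ∃ c : ℤ, ∀ x : FreyTorsion P, σ • x = c • x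

/-- Some Frobenius element at some place over `q` does not act on `E[p]` as a scalar. -/
theorem not_frobScalarAt_iff (P : FreyPackage) (q : ℕ) :
    ¬ FrobScalarAt P q ↔
      ∃ A : ValuationSubring (AlgebraicClosure ℚ), A.LiesOverPrime q ∧
        ∃ σ : GQ, A.IsFrobeniusAt σ q ∧ ∀ c : ℤ, ∃ x : FreyTorsion P, σ • x ≠ c • x := by
  unfold FrobScalarAt
  push Not
  constructor
  · rintro ⟨A, hA, σ, hσ, h⟩
    exact ⟨A, hA, σ, hσ, h⟩
  · rintro ⟨A, hA, σ, hσ, h⟩
    exact ⟨A, hA, σ, hσ, h⟩

/-- (WALL-q⁺)  Mazur's principle at `q ≠ p`, support form, with the SHARP exclusion: either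
`q ≢ 1 mod p` or Frobenius at `q` is not scalar on `E[p]`. -/
def AtQOccursPlusStatement : Prop :=
  ∀ (P : FreyPackage) (M' q : ℕ) [NeZero M'] [NeZero (q * M')], q.Prime → q ≠ P.p →
    ¬ q ∣ M' →
    GaloisRepIsIrreducible (K := AlgebraicClosure ℚ) ℚ P.freyCurve P.p →
    P.GaloisRepUnramifiedAt q → (¬ P.p ∣ q - 1 ∨ ¬ FrobScalarAt P q) →
    ∀ (S : Finset ℕ) (a : ℕ → ℤ), FreyEmbedsIn P (q * M') S a →
      ∃ S' : Finset ℕ, S ⊆ S' ∧ OccursIn M' P.p S' a

/-- (MPq⁺)  Mazur's principle at `q ≠ p`, Frey form, general level, SHARP exclusion. -/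
def MazurPrinciplePlusStatement : Prop :=
  ∀ (P : FreyPackage) {L q : ℕ}, 0 < L → q.Prime → q ≠ P.p → q ∣ L → ¬ q ^ 2 ∣ L →
    GaloisRepIsIrreducible (K := AlgebraicClosure ℚ) ℚ P.freyCurve P.p →
    P.ModularRepOfLevel L → P.GaloisRepUnramifiedAt q →
    (¬ P.p ∣ q - 1 ∨ ¬ FrobScalarAt P q) →
    P.ModularRepOfLevel (L / q)

/-- (HARD-scalar)  Level lowering at `q ≠ p`, `q ‖ L`, when `q ≡ 1 mod p` and Frobenius at `q`
acts on `E[p]` as a scalar (the only case that needs the pivot / Ihara avoidance). -/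
def HardScalarStatement : Prop :=
  ∀ (P : FreyPackage) {L q : ℕ}, 0 < L → q.Prime → q ≠ P.p → q ∣ L → ¬ q ^ 2 ∣ L →
    GaloisRepIsIrreducible (K := AlgebraicClosure ℚ) ℚ P.freyCurve P.p →
    P.ModularRepOfLevel L → P.GaloisRepUnramifiedAt q → P.p ∣ q - 1 → FrobScalarAt P q →
    P.ModularRepOfLevel (L / q)

/-- The sharp wall implies the wall on main. -/
theorem atQOccurs_of_plus (h : AtQOccursPlusStatement) : AtQOccursStatement :=
  fun P M' q _ _ hq hqp hqM' hirr hunr hq1 S a hemb =>
    h P M' q hq hqp hqM' hirr hunr (Or.inl hq1) S a hemb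

/-- The sharp Mazur principle implies the one on main. -/
theorem mazurPrinciple_of_plus (h : MazurPrinciplePlusStatement) : MazurPrincipleStatement :=
  fun P _ _ hL hq hqp hqL hsq hirr hmod hunr hq1 =>
    h P hL hq hqp hqL hsq hirr hmod hunr (Or.inl hq1)

/-- The hard case on main implies the scalar hard case. -/
theorem hardScalar_of_hardCase (h : Row37.HardCaseStatement) : HardScalarStatement :=
  fun P _ _ hL hq hqp hqL hsq hirr hmod hunr hq1 _ =>
    h P hL hq hqp hqL hsq hirr hmod hunr hq1

/-- **The hard case on main from the sharp Mazur principle and the scalar hard case.** -/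
theorem hardCase_of_split (hMP : MazurPrinciplePlusStatement) (hH : HardScalarStatement) :
    Row37.HardCaseStatement := by
  intro P L q hL hq hqp hqL hsq hirr hmod hunr hq1
  by_cases hsc : FrobScalarAt P q
  · exact hH P hL hq hqp hqL hsq hirr hmod hunr hq1 hsc
  · exact hMP P hL hq hqp hqL hsq hirr hmod hunr (Or.inr hsc)

/-- **Level lowering from the sharp Mazur principle and the scalar hard case.** -/
theorem levelLowering_of_split (hMP : MazurPrinciplePlusStatement) (hH : HardScalarStatement) :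
    Row37.LevelLoweringStatement :=
  Row37.levelLowering_of (mazurPrinciple_of_plus hMP) (hardCase_of_split hMP hH)

/-- **S43 from the sharp Mazur principle and the scalar hard case.** -/
theorem S43_of_split (hMP : MazurPrinciplePlusStatement) (hH : HardScalarStatement) :
    S43Statement :=
  Row37.S43_of_levelLowering (levelLowering_of_split hMP hH)

/-- The sharp Mazur principle from the sharp support-form wall at `q`:
`MPq⁺ ⇐ BLR + WALL-q⁺ + R3S + R3'` (same proof as `Spec.mazurPrinciple_of_walls`). -/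
theorem mazurPrinciplePlus_of_walls (hE : EmbedStatement) (hWall : AtQOccursPlusStatement)
    (hR3 : EigenformOfOccursAwayStatement) (hR3' : AlmostAllToWitnessStatement) :
    MazurPrinciplePlusStatement := by
  intro P L q hLpos hq hqp hqL hsq hirr hmod hunr hq1
  obtain ⟨M', rfl⟩ := hqL
  have hM'pos : 0 < M' := by
    rcases Nat.eq_zero_or_pos M' with h0 | h0
    · subst h0; simp at hLpos
    · exact h0
  rw [Nat.mul_div_cancel_left M' hq.pos]
  have hqM' : ¬ q ∣ M' := by
    rintro ⟨k, rfl⟩
    exact hsq ⟨k, by ring⟩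
  haveI : NeZero M' := ⟨hM'pos.ne'⟩
  haveI : NeZero (q * M') := ⟨hLpos.ne'⟩
  obtain ⟨f, W, 𝔪, hwit⟩ := hmod
  have hwit' : P.IsCongruentWitness (q * M') f W 𝔪 := hwit
  obtain ⟨S, hemb⟩ := hE P (q * M') hirr f W 𝔪 hwit'
  obtain ⟨S', -, hocc⟩ := hWall P M' q hq hqp hqM' hirr hunr hq1 S _ hemb
  obtain ⟨g, 𝔪', hg, hmax, hp, hc⟩ := exists_eigenform_of_occursIn hR3 P.pp hocc
  exact ⟨g, W, 𝔪', hR3' P M' hM'pos g W 𝔪' _ hg hwit.2.1 hmax hp hc⟩

/-- **S43 from the sharp wall at `q` (support form) and the scalar hard case.** -/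
theorem S43_of_wallqPlus_hardScalar (hE : EmbedStatement) (hWall : AtQOccursPlusStatement)
    (hR3 : EigenformOfOccursAwayStatement) (hR3' : AlmostAllToWitnessStatement)
    (hH : HardScalarStatement) : S43Statement :=
  S43_of_split (mazurPrinciplePlus_of_walls hE hWall hR3 hR3') hH

end Fermat.Agent.Ribet.H723
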