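import Fermat.Agent.Ribet.H158.WallQSpec
import Fermat.Agent.Ribet.H723.Row37Split

/-!
# Row 37, WALL-q with the SHARP exclusion (helper723)

The wall architect's targets `H158.WallQ.WallQTargetsStatement` (Q2 / Q3 / Q4, quantified over
ALL places `A` over `q` and ALL Frobenius elements at `A`) prove more than Mazur's principle for
`q ≢ 1 mod p`: in the split case Frobenius is the scalar `± q` on `E[p]`.  Hence the same targets
give level lowering whenever `q ≢ 1 mod p` OR some Frobenius at `q` is not scalar on `E[p]`,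
and the hard case is needed only in the form `H723.HardScalarStatement`.

* `lowered_of_targetsQ_plus`     : core (copy of `H158.WallQ.lowered_of_targetsQ`, sharp exclusion);
* `wallQFreyPlus_of_targets`     : Places + DETF + DIM + targets ⇒ `WallQFreyPlusStatement`;
* `mazurPrincipleOddPlus_of_wallQ`;
* `S43_of_mpOddPlus_hardScalar`, `S43_of_targetsQ_hardScalar` :
    row inputs + `WallQTargetsStatement` + `HardScalarStatement` ⇒ `S43Statement`.

No new leaf: the targets are those of `H158/WallQSpec.lean`, verbatim.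
-/

set_option autoImplicit false
set_option linter.style.haveILetI false

open WeierstrassCurve WeierstrassCurve.Affine WeierstrassCurve.Affine.Point
open CuspForm ModularFormClass UpperHalfPlane ModularCurve

namespace Fermat.Agent.Ribet.H723

open Fermat.Agent.Ribet Fermat.Agent.Ribet.Spec Fermat.Agent.Ribet.H944.Wall
open Fermat.Agent.Ribet.H801 Fermat.Agent.Ribet.H158.WallQ

/-- Schur-type lemma: a linear involution of an irreducible `E[p]` commuting with Galois is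
`± 1`. -/
theorem involution_pm_one_h723 (P : FreyPackage)
    (hirr : GaloisRepIsIrreducible (K := AlgebraicClosure ℚ) ℚ P.freyCurve P.p)
    (U : FreyTorsion P →ₗ[ZMod P.p] FreyTorsion P)
    (hUG : ∀ (σ : GQ) (x : FreyTorsion P), U (σ • x) = σ • U x)
    (hUU : ∀ x, U (U x) = x) : (∀ x, U x = x) ∨ (∀ x, U x = -x) := by
  let Vp : Submodule (ZMod P.p) (FreyTorsion P) := LinearMap.ker (U - LinearMap.id)
  have hVp : ∀ x, x ∈ Vp ↔ U x = x := fun x => by
    simp only [Vp, LinearMap.mem_ker, LinearMap.sub_apply, LinearMap.id_apply, sub_eq_zero]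
  have hsp : IsGaloisStable ℚ Vp := fun σ x hx => by
    rw [hVp] at hx ⊢
    rw [hUG, hx]
  rcases hirr.2 Vp hsp with hp | hp
  · right
    intro x
    have h1 : x + U x ∈ Vp := by
      rw [hVp, map_add, hUU, add_comm]
    rw [hp, Submodule.mem_bot] at h1
    exact eq_neg_of_add_eq_zero_right h1
  · left
    intro x
    exact (hVp x).1 (hp ▸ Submodule.mem_top)

/-- The wall at `q` (Frey form, odd `q`) with the SHARP exclusion. -/
def WallQFreyPlusStatement : Prop :=
  ∀ (P : FreyPackage) (M' q : ℕ) [NeZero M'] [NeZero (q * M')], q.Prime → q ≠ 2 → q ≠ P.p →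
    ¬ q ∣ M' →
    GaloisRepIsIrreducible (K := AlgebraicClosure ℚ) ℚ P.freyCurve P.p →
    P.GaloisRepUnramifiedAt q → (¬ P.p ∣ q - 1 ∨ ¬ FrobScalarAt P q) →
    ∀ (S : Finset ℕ) (a : ℕ → ℤ), NonEisAway P.p a → FreyEmbedsIn P (q * M') S a →
      Lowered M' P.p S a

/-- Mazur's principle at odd `q ≠ p` with the SHARP exclusion. -/
def MazurPrincipleOddPlusStatement : Prop :=
  ∀ (P : FreyPackage) {L q : ℕ}, 0 < L → q.Prime → q ≠ 2 → q ≠ P.p → q ∣ L → ¬ q ^ 2 ∣ L →
    GaloisRepIsIrreducible (K := AlgebraicClosure ℚ) ℚ P.freyCurve P.p →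
    P.ModularRepOfLevel L → P.GaloisRepUnramifiedAt q →
    (¬ P.p ∣ q - 1 ∨ ¬ FrobScalarAt P q) →
    P.ModularRepOfLevel (L / q)

section Core

variable {q M' : ℕ} [NeZero M'] [NeZero q] [NeZero (q * M')]

/-- **Core of the wall at `q`, sharp form**: from the three targets at a place `A` with a
Frobenius `φ` such that `q ≢ 1 mod p` or `φ` is not a scalar on `E[p]`. -/
theorem lowered_of_targetsQ_plus (P : FreyPackage) (hq : q.Prime) (hqp : q ≠ P.p)
    (hirr : GaloisRepIsIrreducible (K := AlgebraicClosure ℚ) ℚ P.freyCurve P.p)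
    (hdim : Module.finrank (ZMod P.p) (FreyTorsion P) = 2)
    {A : ValuationSubring (AlgebraicClosure ℚ)} {φ : GQ} (hφ : A.IsFrobeniusAt φ q)
    (hdet : LinearMap.det
      (galoisRepModuleEnd (S := ℚ) (K := AlgebraicClosure ℚ) P.freyCurve P.p φ) = (q : ZMod P.p))
    (hfixE : ∀ σ ∈ A.inertiaSubgroupIn ℚ, ∀ x : FreyTorsion P, σ • x = x)
    (hq1 : ¬ P.p ∣ q - 1 ∨ ∀ c : ℤ, ∃ x : FreyTorsion P, φ • x ≠ c • x)
    {𝓕 𝒮 : AddSubgroup (JZero (q * M'))}
    (h2 : Q2For P.p q M' A 𝒮) (h3 : Q3For P.p q M' 𝓕 𝒮) (h4 : Q4For P.p q M' A 𝓕)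
    {S : Finset ℕ} {a : ℕ → ℤ} (hNE : NonEisAway P.p a)
    (hemb : FreyEmbedsIn P (q * M') S a) : Lowered M' P.p S a := by
  rcases hq1 with hq1 | hns
  · exact lowered_of_targetsQ P hq hqp hirr hdim hφ hdet hfixE hq1 h2 h3 h4 hNE hemb
  haveI : Fact P.p.Prime := ⟨P.pp⟩
  obtain ⟨ι, hinj, hgal, hT⟩ := hemb
  have hp_tors : ∀ x, P.p • ι x = 0 := fun x => by
    rw [← map_nsmul, freyTorsion_nsmul, _root_.map_zero]
  have hfix : ∀ σ ∈ A.inertiaSubgroupIn ℚ, ∀ x, σ • ι x = ι x := fun σ hσ x => by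
    rw [← hgal]
    exact congrArg ι (hfixE σ hσ x)
  have hdeg := isDegPair_alphaL_betaL q M' hq
  -- (W0) not new: the eigensystem occurs at level `M'` through `α_*` or `β_*`
  by_cases h : ∃ x, alphaL q M' (ι x) ≠ 0 ∨ betaL q M' (ι x) ≠ 0
  · refine ⟨S ∪ {q}, Finset.subset_union_left, Or.inl ?_⟩
    obtain ⟨x, hx | hx⟩ := h
    · refine ⟨alphaL q M' (ι x), hx, ?_, fun ℓ hℓ => ?_⟩
      · rw [← map_nsmul, hp_tors, _root_.map_zero]
      · rw [Finset.mem_union, not_or] at hℓ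
        rw [← hdeg.hecke_left ℓ hℓ.2, hT ℓ hℓ.1, map_zsmul]
    · refine ⟨betaL q M' (ι x), hx, ?_, fun ℓ hℓ => ?_⟩
      · rw [← map_nsmul, hp_tors, _root_.map_zero]
      · rw [Finset.mem_union, not_or] at hℓ
        rw [← hdeg.hecke_right ℓ hℓ.2, hT ℓ hℓ.1, map_zsmul]
  have hnew : ∀ x, IsNewTorsQ P.p q M' (ι x) := by
    intro x
    refine ⟨hp_tors x, ?_, ?_⟩
    · by_contra hx
      exact h ⟨x, Or.inl hx⟩
    · by_contra hx
      exact h ⟨x, Or.inr hx⟩
  have heig : ∀ x, EigenAt (q * M') S a (ι x) := fun x ℓ hℓ => hT ℓ hℓ x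
  -- (Q4) the image lies in the finite part
  have hF : ∀ x, ι x ∈ 𝓕 := fun x =>
    h4 S a hNE (ι x) (hnew x) (heig x) (fun σ hσ => hfix σ hσ x)
  -- (Q3) if the image is not in the split part we are done
  by_cases hS : ∃ x, ι x ∉ 𝒮
  · obtain ⟨x, hx⟩ := hS
    exact h3 S a (ι x) (hF x) hx (hnew x) (heig x)
  -- (Q2) otherwise Frobenius is the scalar `± q` on `E[p]`: contradiction
  exfalso
  have hι𝒮 : ∀ x, ι x ∈ 𝒮 := by
    intro x
    by_contra hx
    exact hS ⟨x, hx⟩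
  obtain ⟨u, huG, huu, hφu⟩ := h2
  have hcopq : IsCoprime (q : ℤ) (P.p : ℤ) := by
    rw [isCoprime_comm]
    refine (Nat.prime_iff_prime_int.mp P.pp).coprime_iff_not_dvd.2 ?_
    intro h'
    have h'' : P.p ∣ q := by exact_mod_cast h'
    exact hqp ((Nat.prime_dvd_prime_iff_eq P.pp hq).1 h'').symm
  obtain ⟨d, e, hde⟩ := hcopq
  have hu : ∀ x, u (ι x) = ι (d • (φ • x)) := by
    intro x
    have h1 : φ • ι x = q • u (ι x) := hφu φ hφ (ι x) (hι𝒮 x) (hnew x)
    have h2' : P.p • u (ι x) = 0 := by rw [← map_nsmul, hp_tors, _root_.map_zero]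
    calc u (ι x) = d • (q • u (ι x)) := (bezout_zsmul_nsmul _ P.p q d e hde h2').symm
      _ = d • (φ • ι x) := by rw [h1]
      _ = ι (d • (φ • x)) := by rw [map_zsmul, hgal]
  -- the involution on `E[p]`
  let U : FreyTorsion P →ₗ[ZMod P.p] FreyTorsion P :=
    (d : ZMod P.p) • galoisRepModuleEnd (S := ℚ) (K := AlgebraicClosure ℚ) P.freyCurve P.p φ
  have hUdef : ∀ x, U x = d • (φ • x) := fun x => by
    show (d : ZMod P.p) • (φ • x) = d • (φ • x)
    exact Int.cast_smul_eq_zsmul (ZMod P.p) d (φ • x)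
  have hιU : ∀ x, ι (U x) = u (ι x) := fun x => by rw [hUdef, hu]
  have hUG : ∀ (σ : GQ) (x : FreyTorsion P), U (σ • x) = σ • U x := fun σ x => by
    apply hinj
    rw [hιU, hgal, huG, hgal, hιU]
  have hUU : ∀ x, U (U x) = x := fun x => by
    apply hinj
    rw [hιU, hιU, huu _ (hι𝒮 x) (hnew x)]
  have hφU : ∀ x : FreyTorsion P, φ • x = (q : ℤ) • U x := fun x => by
    rw [hUdef, natCast_zsmul]
    have h3' : d • (q • (φ • x)) = φ • x :=
      bezout_zsmul_nsmul _ P.p q d e hde (freyTorsion_nsmul P _)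
    rw [smul_comm] at h3'
    exact h3'.symm
  rcases involution_pm_one_h723 P hirr U hUG hUU with hU | hU
  · obtain ⟨x, hx⟩ := hns (q : ℤ)
    exact hx (by rw [hφU, hU])
  · obtain ⟨x, hx⟩ := hns (-(q : ℤ))
    refine hx ?_
    rw [hφU, hU, smul_neg]
    exact (_root_.neg_smul _ _).symm

end Core

/-- **WALL-q, sharp form, from the three targets**: Places + DETF + DIM + targets. -/
theorem wallQFreyPlus_of_targets (hPl : PlacesStatement) (hDet : DetFrobStatement)
    (hDim : TorsionRankStatement) (hT : WallQTargetsStatement) : WallQFreyPlusStatement := by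
  intro P M' q _ _ hq hq2 hqp hqM' hirr hunr hq1 S a hNE hemb
  haveI : NeZero q := ⟨hq.ne_zero⟩
  rcases hq1 with hq1 | hns
  · obtain ⟨A, hA, φ, hφ⟩ := hPl q hq
    obtain ⟨𝓕, 𝒮, h2, h3, h4⟩ := hT P.p q M' P.pp P.hp5 hq hq2 hqp hqM' A hA
    exact lowered_of_targetsQ_plus P hq hqp hirr (hDim P) hφ (hDet P q hq hqp A hA φ hφ)
      (fun σ hσ x => hunr A hA σ hσ x) (Or.inl hq1) h2 h3 h4 hNE hemb
  · obtain ⟨A, hA, φ, hφ, hφns⟩ := (not_frobScalarAt_iff P q).1 hns
    obtain ⟨𝓕, 𝒮, h2, h3, h4⟩ := hT P.p q M' P.pp P.hp5 hq hq2 hqp hqM' A hA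
    exact lowered_of_targetsQ_plus P hq hqp hirr (hDim P) hφ (hDet P q hq hqp A hA φ hφ)
      (fun σ hσ x => hunr A hA σ hσ x) (Or.inr hφns) h2 h3 h4 hNE hemb

/-- The sharp wall implies the wall of `H158/WallQSpec.lean`. -/
theorem wallQFrey_of_plus (h : WallQFreyPlusStatement) : WallQFreyStatement :=
  fun P M' q _ _ hq hq2 hqp hqM' hirr hunr hq1 S a hNE hemb =>
    h P M' q hq hq2 hqp hqM' hirr hunr (Or.inl hq1) S a hNE hemb

/-- **Mazur's principle (odd `q`), sharp form, from the sharp wall at `q`**: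
`BLR + WALL-q⁺ + NE + R3S + R3' ⇒ MPq⁺`. -/
theorem mazurPrincipleOddPlus_of_wallQ (hE : EmbedStatement) (hWall : WallQFreyPlusStatement)
    (hNE : NonEisensteinStatement) (hR3 : EigenformOfOccursAwayStatement)
    (hR3' : AlmostAllToWitnessStatement) : MazurPrincipleOddPlusStatement := by
  intro P L q hLpos hq hq2 hqp hqL hsq hirr hmod hunr hq1
  obtain ⟨M', rfl⟩ := hqL
  have hM'pos : 0 < M' := by
    rcases Nat.eq_zero_or_pos M' with h0 | h0
    · subst h0; simp at hLpos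
    · exact h0
  rw [Nat.mul_div_cancel_left M' hq.pos]
  have hqM' : ¬ q ∣ M' := by
    rintro ⟨k, rfl⟩
    exact hsq ⟨k, by ring⟩
  haveI : NeZero M' := ⟨hM'pos.ne'⟩
  haveI : NeZero (q * M') := ⟨hLpos.ne'⟩
  obtain ⟨f, W, 𝔪, hwit⟩ := hmod
  have hwit' : P.IsCongruentWitness (q * M') f W 𝔪 := hwit
  obtain ⟨S, hemb⟩ := hE P (q * M') hirr f W 𝔪 hwit'
  have hNE' : NonEisAway P.p (fun ℓ => W.apOfModel ℓ) := by
    intro S₁
    obtain ⟨ℓ, hℓ, hℓS, -, hne⟩ := hNE P W hwit.2.1 hirr S₁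
    exact ⟨ℓ, hℓ, hℓS, hne⟩
  obtain ⟨S', g, 𝔪', hg, hmax, hp, hc⟩ :=
    eigenAway_of_lowered hR3 P.pp (hWall P M' q hq hq2 hqp hqM' hirr hunr hq1 S _ hNE' hemb)
  exact ⟨g, W, 𝔪', hR3' P M' hM'pos g W 𝔪' _ hg hwit.2.1 hmax hp hc⟩

/-- **S43 from the sharp Mazur principle at odd `q` and the SCALAR hard case.** -/
theorem S43_of_mpOddPlus_hardScalar (hMP : MazurPrincipleOddPlusStatement)
    (hH : HardScalarStatement) : S43Statement := by
  intro P N q hcond hq hq2 hqp hqN hirr hmod hunr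
  have hsq : ¬ q ^ 2 ∣ N := hcond.sq_not_dvd hq
  refine ⟨N / q, Nat.div_dvd_of_dvd hqN, not_dvd_div_of_sq_not_dvd hq hqN hsq, ?_⟩
  by_cases h1 : P.p ∣ q - 1
  · by_cases hsc : FrobScalarAt P q
    · exact hH P hcond.pos hq hqp hqN hsq hirr hmod hunr h1 hsc
    · exact hMP P hcond.pos hq hq2 hqp hqN hsq hirr hmod hunr (Or.inr hsc)
  · exact hMP P hcond.pos hq hq2 hqp hqN hsq hirr hmod hunr (Or.inl h1)

/-- **S43 from the three targets of the wall at `q`, the row inputs and the SCALAR hard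
case.** -/
theorem S43_of_targetsQ_hardScalar (hE : EmbedStatement) (hPl : PlacesStatement)
    (hDet : DetFrobStatement) (hDim : TorsionRankStatement) (hNE : NonEisensteinStatement)
    (hR3 : EigenformOfOccursAwayStatement) (hR3' : AlmostAllToWitnessStatement)
    (hT : WallQTargetsStatement) (hH : HardScalarStatement) : S43Statement :=
  S43_of_mpOddPlus_hardScalar
    (mazurPrincipleOddPlus_of_wallQ hE (wallQFreyPlus_of_targets hPl hDet hDim hT) hNE hR3 hR3')
    hH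

end Fermat.Agent.Ribet.H723
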