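import Fermat.Agent.Ribet.H723.WallQPlus

/-!
# Row 37 (S43): the SHARPEST target for the hard case (helper723)

Combines the minimal-level reduction of helper768 (`S43` asks only for SOME divisor `M ∣ N` with
`q ∤ M`) with the scalar / non-scalar split of `H723/Row37Split.lean`:

`HardMinScalarStatement` : a conductor level `L` which is modular, prime to `p`, MINIMAL among
modular levels, and ALL of whose odd prime factors `r` are SCALAR primes (`r ≡ 1 mod p` and
every Frobenius at `r` is a scalar on `E[p]`) has no odd prime factor.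

`S43_of_hardMinScalar : S44 → S05 → MazurPrincipleOddPlus →
    HardMinScalar → S43`.

So the Ihara-avoidance patching may assume: level prime to `p` (flat at `p`), every witness new at
every prime of `L` (minimality), and `ρ̄|_{D_r}` scalar at EVERY odd `r ∣ L` (Taylor's set-up).
Definitions and logic only.
-/

set_option autoImplicit false
set_option linter.style.haveILetI false

open WeierstrassCurve WeierstrassCurve.Affine WeierstrassCurve.Affine.Point
open CuspForm ModularFormClass UpperHalfPlane ModularCurve

namespace Fermat.Agent.Ribet.H723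

open Fermat.Agent.Ribet Fermat.Agent.Ribet.Spec

/-- (HARD-min-scalar)  A modular conductor level `L`, prime to `p`, minimal among modular
levels, all of whose odd prime factors are scalar primes, has no odd prime factor. -/
def HardMinScalarStatement : Prop :=
  ∀ (P : FreyPackage) {L : ℕ}, P.IsConductorLevel L → ¬ P.p ∣ L →
    GaloisRepIsIrreducible (K := AlgebraicClosure ℚ) ℚ P.freyCurve P.p →
    P.ModularRepOfLevel L →
    (∀ r : ℕ, r.Prime → r ∣ L → ¬ P.ModularRepOfLevel (L / r)) →
    (∀ r : ℕ, r.Prime → r ≠ 2 → r ∣ L → P.p ∣ r - 1 ∧ FrobScalarAt P r) →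
    ∀ q : ℕ, q.Prime → q ≠ 2 → ¬ q ∣ L

/-- A minimal modular divisor of a modular level. -/
theorem exists_minimal_modular_dvd_h723 (P : FreyPackage) {N : ℕ}
    (hmod : P.ModularRepOfLevel N) :
    ∃ M : ℕ, M ∣ N ∧ P.ModularRepOfLevel M ∧
      ∀ M' : ℕ, M' ∣ N → P.ModularRepOfLevel M' → M ≤ M' := by
  classical
  have hex : ∃ M : ℕ, M ∣ N ∧ P.ModularRepOfLevel M := ⟨N, dvd_rfl, hmod⟩
  refine ⟨Nat.find hex, (Nat.find_spec hex).1, (Nat.find_spec hex).2, ?_⟩
  intro M' hM' hmod'
  exact Nat.find_min' hex ⟨hM', hmod'⟩

/-- **S43 from S44, S05, the sharp Mazur principle and the hard case at a minimal level with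
scalar primes only.** -/
theorem S43_of_hardMinScalar (h44 : S44Statement) (h05 : S05Statement)
    (hMP : MazurPrincipleOddPlusStatement) (hH : HardMinScalarStatement) : S43Statement := by
  intro P N q hcond hq hq2 _ _ hirr hmod _
  obtain ⟨M, hMN, hmodM, hmin⟩ := exists_minimal_modular_dvd_h723 P hmod
  have hMpos : 0 < M := Nat.pos_of_dvd_of_pos hMN hcond.pos
  have hcondM : P.IsConductorLevel M := hcond.of_dvd hMN hMpos
  -- `p ∤ M` by S44 and minimality
  have hpM : ¬ P.p ∣ M := by
    intro hp
    obtain ⟨M', hM'M, hpM', hmodM'⟩ := h44 P hcondM hp hirr hmodM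
    have hle : M ≤ M' := hmin M' (hM'M.trans hMN) hmodM'
    have hM'le : M' ≤ M := Nat.le_of_dvd hMpos hM'M
    have : M' = M := le_antisymm hM'le hle
    exact hpM' (this ▸ hp)
  -- minimality in the form needed
  have hminr : ∀ r : ℕ, r.Prime → r ∣ M → ¬ P.ModularRepOfLevel (M / r) := by
    intro r hr hrM hmodr
    have hdvd : M / r ∣ N := (Nat.div_dvd_of_dvd hrM).trans hMN
    have hle : M ≤ M / r := hmin (M / r) hdvd hmodr
    have hlt : M / r < M := Nat.div_lt_self hMpos hr.one_lt
    omega
  -- every odd prime of `M` is a scalar prime (sharp Mazur principle + minimality)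
  have hscal : ∀ r : ℕ, r.Prime → r ≠ 2 → r ∣ M → P.p ∣ r - 1 ∧ FrobScalarAt P r := by
    intro r hr hr2 hrM
    have hrp : r ≠ P.p := fun h => hpM (h ▸ hrM)
    by_contra hcon
    have hex : ¬ P.p ∣ r - 1 ∨ ¬ FrobScalarAt P r := by
      by_cases h1 : P.p ∣ r - 1
      · exact Or.inr fun h2 => hcon ⟨h1, h2⟩
      · exact Or.inl h1
    exact hminr r hr hrM
      (hMP P hMpos hr hr2 hrp hrM (hcondM.sq_not_dvd hr) hirr hmodM (h05 P hr hr2 hrp) hex)
  exact ⟨M, hMN, hH P hcondM hpM hirr hmodM hminr hscal q hq hq2, hmodM⟩

/-- **S43 from S44, S05, the three targets of the wall at `q`, the row inputs and the hard case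
at a minimal level with scalar primes only.** -/
theorem S43_of_targetsQ_hardMinScalar (h44 : S44Statement) (h05 : S05Statement)
    (hE : EmbedStatement) (hPl : PlacesStatement)
    (hDet : DetFrobStatement) (hDim : TorsionRankStatement) (hNE : NonEisensteinStatement)
    (hR3 : EigenformOfOccursAwayStatement) (hR3' : AlmostAllToWitnessStatement)
    (hT : H158.WallQ.WallQTargetsStatement) (hH : HardMinScalarStatement) : S43Statement :=
  S43_of_hardMinScalar h44 h05
    (mazurPrincipleOddPlus_of_wallQ hE (wallQFreyPlus_of_targets hPl hDet hDim hT) hNE hR3 hR3')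
    hH

/-- The scalar hard case of `Row37Split` implies the minimal one (for orientation: the minimal
statement is the weakest of the three hard-case targets). -/
theorem hardMinScalar_of_hardScalar (h05 : S05Statement) (hH : HardScalarStatement) :
    HardMinScalarStatement := by
  intro P L hcond hpL hirr hmod hmin hscal q hq hq2 hqL
  have hqp : q ≠ P.p := fun h => hpL (h ▸ hqL)
  obtain ⟨h1, h2⟩ := hscal q hq hq2 hqL
  exact hmin q hq hqL
    (hH P hcond.pos hq hqp hqL (hcond.sq_not_dvd hq) hirr hmod (h05 P hq hq2 hqp) h1 h2)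

end Fermat.Agent.Ribet.H723
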