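import Fermat.Agent.Ribet.H943.Row37b
import Fermat.Agent.Ribet.H723.WallQPlus

/-!
# Row 37 (S43): the official targets, wired to the wall at `q`  (helper723)

Official targets (ruling of the row-lead helper943, `Ribet/H943/Row37b.lean`):

* WALL-q = `H158.WallQ.WallQTargetsStatement` (Q2 / Q3 / Q4, ODD `q` only);
* HARD   = `H943.Row37b.HardCoreStatement` (`= H727.HardCaseMinFlatFor EasyAt`).

`Row37b.S43_of_core` takes the sharp Mazur principle for ALL primes `q`
(`H723.MazurPrinciplePlusStatement`), while the wall at `q` delivers it for ODD `q` only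
(`H723.MazurPrincipleOddPlusStatement`, `H723/WallQPlus.lean`).  Only odd primes are used.
This file closes the chain:

* `mazurPrincipleFor_easy_odd` : S05 + `MazurPrincipleOddPlusStatement` ⇒
                                 `H727.MazurPrincipleFor Row37b.EasyAt`;
* `S43_of_core_odd`            : `Row37b.S43_of_core` with the odd sharp Mazur principle;
* `noEasyPrimes_easyAt_iff`    : what the patching may assume at the primes of the level;
* `S43_of_official`            : S44 + S05 + row inputs + WALL-q targets + HARD-core ⇒ S43.

Logic only.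
-/

set_option autoImplicit false
set_option linter.style.haveILetI false

open WeierstrassCurve WeierstrassCurve.Affine WeierstrassCurve.Affine.Point
open CuspForm ModularFormClass UpperHalfPlane ModularCurve

namespace Fermat.Agent.Ribet.H723

open Fermat.Agent.Ribet Fermat.Agent.Ribet.Spec Fermat.Agent.Ribet.H943

theorem not_easyAt_iff (P : FreyPackage) (r : ℕ) :
    ¬ Row37b.EasyAt P r ↔ P.p ∣ r - 1 ∧ FrobScalarAt P r := by
  unfold Row37b.EasyAt
  constructor
  · intro h
    constructor
    · by_contra h1
      exact h (Or.inl h1)
    · by_contra h2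
      exact h (Or.inr h2)
  · rintro ⟨h1, h2⟩ (h | h)
    · exact h h1
    · exact h h2

/-- At a level without easy primes every odd prime `r ≠ p` is hard and scalar. -/
theorem noEasyPrimes_easyAt_iff (P : FreyPackage) (L : ℕ) :
    H727.NoEasyPrimes Row37b.EasyAt P L ↔
      ∀ r : ℕ, r.Prime → r ∣ L → r ≠ 2 → r ≠ P.p → P.p ∣ r - 1 ∧ FrobScalarAt P r := by
  unfold H727.NoEasyPrimes
  constructor
  · intro h r hr hrL hr2 hrp
    exact (not_easyAt_iff P r).1 (h r hr hrL hr2 hrp)
  · intro h r hr hrL hr2 hrp
    exact (not_easyAt_iff P r).2 (h r hr hrL hr2 hrp)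

/-- **Mazur's principle for the easy primes** (form of `H727`), from S05 and the sharp Mazur
principle at ODD `q` (the form delivered by the wall at `q`). -/
theorem mazurPrincipleFor_easy_odd (h05 : S05Statement)
    (hMP : MazurPrincipleOddPlusStatement) : H727.MazurPrincipleFor Row37b.EasyAt :=
  fun P _ _ hL hr hr2 hrp hrL hirr hmod hE =>
    hMP P hL.pos hr hr2 hrp hrL (hL.sq_not_dvd hr) hirr hmod (h05 P hr hr2 hrp) hE

/-- `Row37b.S43_of_core` with the sharp Mazur principle at odd primes only. -/
theorem S43_of_core_odd (h44 : S44Statement) (hMP : MazurPrincipleOddPlusStatement)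
    (h05 : S05Statement) (hH : Row37b.HardCoreStatement) : S43Statement :=
  H727.S43_of_easyHardFlat Row37b.EasyAt h44 (mazurPrincipleFor_easy_odd h05 hMP) hH

/-- **S43 from the official targets**: S44 (row 38), S05, the row inputs, the three targets of
the wall at `q` and the hard core. -/
theorem S43_of_official (h44 : S44Statement) (h05 : S05Statement)
    (hE : EmbedStatement) (hPl : PlacesStatement)
    (hDet : DetFrobStatement) (hDim : TorsionRankStatement) (hNE : NonEisensteinStatement)
    (hR3 : EigenformOfOccursAwayStatement) (hR3' : AlmostAllToWitnessStatement)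
    (hT : H158.WallQ.WallQTargetsStatement) (hH : Row37b.HardCoreStatement) :
    S43Statement :=
  S43_of_core_odd h44
    (mazurPrincipleOddPlus_of_wallQ hE (wallQFreyPlus_of_targets hPl hDet hDim hT) hNE hR3 hR3')
    h05 hH

end Fermat.Agent.Ribet.H723
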