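import Fermat.Agent.S38.IA.Spec
import Fermat.Agent.Ribet.H723.Row37Split
import Fermat.Agent.Ribet.H104.FreyModelAtP

/-!
# Row HARD (row 37, hard case), cell TOP, leaf PIV: the Frey → `ρ̄` dictionary  (helper723)

`ρ̄ := S59.Arch.curveResidual p W hcard hker ι`, `W = P.freyCurveInt` (the semistable integral
model of the Frey curve, `Ribet/H104/FreyModelAtP.lean`), `p = P.p`, `ι : 𝔽_p → k`.

* `frobScalar_rho` : if `σ` acts on `E[p]` (`Spec.FreyTorsion P`) through the integer `c`, then
  `ρ̄(σ) = ι(c) • 1`;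
* `isPivotSet_frey` : `S38.IA.IsPivotSet` from the hypotheses of
  `H723.HardMinScalarStatement` (`p ∣ q - 1` and `FrobScalarAt P q` for the odd primes of `L`);
* `isUnramifiedAt_frey` : `P.GaloisRepUnramifiedAt q → ρ̄.IsUnramifiedAt q` (so that frozen S05
  gives `Ram(ρ̄) ⊆ {2, p}`), and conversely `galoisRepUnramifiedAt_of_frey` (so that leaf RAM2,
  `¬ P.GaloisRepUnramifiedAt 2`, gives `2 ∈ Ram(ρ̄)`); `isUnramifiedAt_frey_iff`;
* `modRepIsIrreducible_frey` : irreducibility of `E[p]` in the language of row S59.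

Definitions of the Prelude and logic only.
-/

set_option autoImplicit false
set_option linter.style.haveILetI false

open WeierstrassCurve WeierstrassCurve.Affine WeierstrassCurve.Affine.Point
open scoped WeierstrassCurve.Affine TensorProduct

namespace Fermat.Agent.Ribet.H723.Top

open Fermat.Agent.Ribet Fermat.Agent.Ribet.Spec Fermat.Agent.S59.Arch

/-! ### Transport along `P.freyCurve = P.freyCurveInt.map _` -/

/-- A statement about the Galois action on `E[n]` can be transported along an equality of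
curves. -/
theorem torsion_transport {E E' : WeierstrassCurve ℚ} (h : E = E') (n : ℕ)
    (C : ∀ E₀ : WeierstrassCurve ℚ,
      ((AlgebraicClosure ℚ ≃ₐ[ℚ] AlgebraicClosure ℚ) → Submodule.torsionBy ℤ (E₀⁄(AlgebraicClosure ℚ)).Point n →
        Submodule.torsionBy ℤ (E₀⁄(AlgebraicClosure ℚ)).Point n) → Prop)
    (hC : C E fun σ x => σ • x) : C E' fun σ x => σ • x := by
  subst h
  exact hC

/-- Scalar action, transported. -/
theorem scalar_transport {E E' : WeierstrassCurve ℚ} (h : E = E') (n : ℕ) (σ : AlgebraicClosure ℚ ≃ₐ[ℚ] AlgebraicClosure ℚ) (c : ℤ)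
    (hc : ∀ x : Submodule.torsionBy ℤ (E⁄(AlgebraicClosure ℚ)).Point n, σ • x = c • x) :
    ∀ x : Submodule.torsionBy ℤ (E'⁄(AlgebraicClosure ℚ)).Point n, σ • x = c • x := by
  subst h
  exact hc

/-- Trivial action, transported. -/
theorem fixed_transport {E E' : WeierstrassCurve ℚ} (h : E = E') (n : ℕ) (σ : AlgebraicClosure ℚ ≃ₐ[ℚ] AlgebraicClosure ℚ)
    (hc : ∀ x : Submodule.torsionBy ℤ (E⁄(AlgebraicClosure ℚ)).Point n, σ • x = x) :
    ∀ x : Submodule.torsionBy ℤ (E'⁄(AlgebraicClosure ℚ)).Point n, σ • x = x := by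
  subst h
  exact hc

/-- Irreducibility, transported. -/
theorem irreducible_transport {E E' : WeierstrassCurve ℚ} (h : E = E') (n : ℕ)
    (hirr : GaloisRepIsIrreducible (K := AlgebraicClosure ℚ) ℚ E n) :
    GaloisRepIsIrreducible (K := AlgebraicClosure ℚ) ℚ E' n := by
  subst h
  exact hirr

/-- Irreducibility of `E[p]` in the language of row S59. -/
theorem modRepIsIrreducible_frey (P : FreyPackage)
    (hirr : GaloisRepIsIrreducible (K := AlgebraicClosure ℚ) ℚ P.freyCurve P.p) :
    P.freyCurveInt.ModRepIsIrreducible P.p :=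
  irreducible_transport (H104.freyCurve_eq_map P) P.p hirr

/-- ... and back. -/
theorem galoisRepIsIrreducible_frey (P : FreyPackage)
    (hirr : P.freyCurveInt.ModRepIsIrreducible P.p) :
    GaloisRepIsIrreducible (K := AlgebraicClosure ℚ) ℚ P.freyCurve P.p :=
  irreducible_transport (H104.freyCurve_eq_map P).symm P.p hirr

/-! ### The residual representation of a curve and scalars -/

/-- Scalars stay scalars under base change. -/
theorem baseChange_rho_of_scalar {k k' : Type} [Field k] [Field k'] [Algebra k k']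
    (ρ : ResidualGaloisRep k) (σ : AlgebraicClosure ℚ ≃ₐ[ℚ] AlgebraicClosure ℚ) (c : k)
    (h : ρ.ρ σ = c • (1 : Module.End k ρ.V)) :
    (ρ.baseChange k').ρ σ = (algebraMap k k' c) • (1 : Module.End k' (ρ.baseChange k').V) := by
  show (ρ.ρ σ).baseChange k' = _
  rw [h, LinearMap.baseChange_smul, LinearMap.baseChange_one, algebraMap_smul]

/-- Scalars stay scalars under base change along a ring homomorphism. -/
theorem baseChangeAlong_rho_of_scalar {k k' : Type} [Field k] [Field k'] (ι : k →+* k')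
    (ρ : ResidualGaloisRep k) (σ : AlgebraicClosure ℚ ≃ₐ[ℚ] AlgebraicClosure ℚ) (c : k)
    (h : ρ.ρ σ = c • (1 : Module.End k ρ.V)) :
    (ρ.baseChangeAlong ι).ρ σ = (ι c) • (1 : Module.End k' (ρ.baseChangeAlong ι).V) := by
  letI : Algebra k k' := ι.toAlgebra
  exact baseChange_rho_of_scalar ρ σ c h

/-- A residual representation is trivial at `σ` as soon as a base change of it is. -/
theorem rho_eq_one_of_baseChangeAlong {k k' : Type} [Field k] [Field k'] (ι : k →+* k')
    (ρ : ResidualGaloisRep k) (σ : AlgebraicClosure ℚ ≃ₐ[ℚ] AlgebraicClosure ℚ)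
    (h : (ρ.baseChangeAlong ι).ρ σ = 1) : ρ.ρ σ = 1 := by
  letI : Algebra k k' := ι.toAlgebra
  have h1 : (ρ.ρ σ).baseChange k' = 1 := h
  refine LinearMap.ext fun v => ?_
  have hinj : Function.Injective (fun v : ρ.V => (1 : k') ⊗ₜ[k] v) :=
    Module.FaithfullyFlat.tensorProduct_mk_injective (A := k) (B := k') ρ.V
  apply hinj
  have := congrArg (fun g : Module.End k' (k' ⊗[k] ρ.V) => g ((1 : k') ⊗ₜ[k] v)) h1
  simpa [LinearMap.baseChange_tmul] using this

section Residual

variable (p : ℕ) [Fact p.Prime] (W : WeierstrassCurve ℤ)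
  (hcard : Nat.card (Submodule.torsionBy ℤ
    ((W.map (Int.castRingHom ℚ))⁄(AlgebraicClosure ℚ)).Point p) = p ^ 2)
  (hker : GaloisFactorsThroughFiniteLevel
    (WeierstrassCurve.Affine.Point.galoisRepModuleEnd (K := AlgebraicClosure ℚ) ℚ
      (W.map (Int.castRingHom ℚ)) p))
  {k : Type} [Field k] (ι : ZMod p →+* k)

/-- If `σ` acts on `E[p]` through the integer `c`, then `ρ̄₀(σ) = c • 1` on `E[p]`. -/
theorem rho_residualGaloisRepOf_of_scalar (σ : AlgebraicClosure ℚ ≃ₐ[ℚ] AlgebraicClosure ℚ) (c : ℤ)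
    (hc : ∀ x : Submodule.torsionBy ℤ
      ((W.map (Int.castRingHom ℚ))⁄(AlgebraicClosure ℚ)).Point p, σ • x = c • x) :
    ((W.map (Int.castRingHom ℚ)).residualGaloisRepOf p hcard hker).ρ σ
      = ((c : ZMod p)) • (1 : Module.End (ZMod p)
          ((W.map (Int.castRingHom ℚ)).residualGaloisRepOf p hcard hker).V) := by
  apply LinearMap.ext
  intro x
  let y : Submodule.torsionBy ℤ
    ((W.map (Int.castRingHom ℚ))⁄(AlgebraicClosure ℚ)).Point p := x
  show σ • y = (c : ZMod p) • y
  rw [hc y, Int.cast_smul_eq_zsmul]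

/-- If `σ` acts on `E[p]` through the integer `c`, then `ρ̄(σ) = ι(c) • 1`. -/
theorem frobScalar_rho (σ : AlgebraicClosure ℚ ≃ₐ[ℚ] AlgebraicClosure ℚ) (c : ℤ)
    (hc : ∀ x : Submodule.torsionBy ℤ
      ((W.map (Int.castRingHom ℚ))⁄(AlgebraicClosure ℚ)).Point p, σ • x = c • x) :
    (curveResidual p W hcard hker ι).ρ σ
      = (ι (c : ZMod p)) • (1 : Module.End k (curveResidual p W hcard hker ι).V) :=
  baseChangeAlong_rho_of_scalar ι _ σ _ (rho_residualGaloisRepOf_of_scalar p W hcard hker σ c hc)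

/-- If `σ` acts trivially on `E[p]`, then `ρ̄(σ) = 1`. -/
theorem rho_eq_one_of_fixed (σ : AlgebraicClosure ℚ ≃ₐ[ℚ] AlgebraicClosure ℚ)
    (hc : ∀ x : Submodule.torsionBy ℤ
      ((W.map (Int.castRingHom ℚ))⁄(AlgebraicClosure ℚ)).Point p, σ • x = x) :
    (curveResidual p W hcard hker ι).ρ σ = 1 := by
  have h := frobScalar_rho p W hcard hker ι σ 1 (fun x => by rw [hc x, one_smul])
  rw [h, Int.cast_one, map_one, one_smul]

/-- `E[p]` unramified at `q` implies `ρ̄` unramified at `q`. -/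
theorem isUnramifiedAt_curveResidual (q : ℕ)
    (h : WeierstrassCurve.Affine.Point.GaloisRepUnramifiedAt (K := AlgebraicClosure ℚ) ℚ
      (W.map (Int.castRingHom ℚ)) p q) :
    (curveResidual p W hcard hker ι).IsUnramifiedAt q :=
  fun A hA σ hσ => rho_eq_one_of_fixed p W hcard hker ι σ (h A hA σ hσ)

/-- `ρ̄` unramified at `q` implies `E[p]` unramified at `q`. -/
theorem galoisRepUnramifiedAt_of_curveResidual (q : ℕ)
    (h : (curveResidual p W hcard hker ι).IsUnramifiedAt q) :
    WeierstrassCurve.Affine.Point.GaloisRepUnramifiedAt (K := AlgebraicClosure ℚ) ℚ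
      (W.map (Int.castRingHom ℚ)) p q := by
  intro A hA σ hσ x
  have h1 : ((W.map (Int.castRingHom ℚ)).residualGaloisRepOf p hcard hker).ρ σ = 1 :=
    rho_eq_one_of_baseChangeAlong ι _ σ (h A hA σ hσ)
  have h2 := congrArg (fun g : Module.End (ZMod p)
    ((W.map (Int.castRingHom ℚ)).residualGaloisRepOf p hcard hker).V => g x) h1
  exact h2

end Residual

/-! ### The Frey curve -/

section Frey

variable (P : FreyPackage) [Fact P.p.Prime]
  (hcard : Nat.card (Submodule.torsionBy ℤ
    ((P.freyCurveInt.map (Int.castRingHom ℚ))⁄(AlgebraicClosure ℚ)).Point P.p) = P.p ^ 2)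
  (hker : GaloisFactorsThroughFiniteLevel
    (WeierstrassCurve.Affine.Point.galoisRepModuleEnd (K := AlgebraicClosure ℚ) ℚ
      (P.freyCurveInt.map (Int.castRingHom ℚ)) P.p))
  {k : Type} [Field k] (ι : ZMod P.p →+* k)

/-- Frozen-S05 language to row-S59 language: unramified primes. -/
theorem isUnramifiedAt_frey (q : ℕ) (h : P.GaloisRepUnramifiedAt q) :
    (curveResidual P.p P.freyCurveInt hcard hker ι).IsUnramifiedAt q := by
  apply isUnramifiedAt_curveResidual
  intro A hA σ hσ
  exact fixed_transport (H104.freyCurve_eq_map P) P.p σ (h A hA σ hσ)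

/-- Row-S59 language to frozen-S05 language: unramified primes. -/
theorem galoisRepUnramifiedAt_of_frey (q : ℕ)
    (h : (curveResidual P.p P.freyCurveInt hcard hker ι).IsUnramifiedAt q) :
    P.GaloisRepUnramifiedAt q := by
  intro A hA σ hσ
  exact fixed_transport (H104.freyCurve_eq_map P).symm P.p σ
    (galoisRepUnramifiedAt_of_curveResidual P.p P.freyCurveInt hcard hker ι q h A hA σ hσ)

/-- `ρ̄` is unramified at `q` iff `E[p]` is. -/
theorem isUnramifiedAt_frey_iff (q : ℕ) :
    (curveResidual P.p P.freyCurveInt hcard hker ι).IsUnramifiedAt q ↔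
      P.GaloisRepUnramifiedAt q :=
  ⟨galoisRepUnramifiedAt_of_frey P hcard hker ι q, isUnramifiedAt_frey P hcard hker ι q⟩

/-- Scalar Frobenius elements, in the language of row HARD. -/
theorem frobScalar_frey (q : ℕ) (h : FrobScalarAt P q)
    (A : ValuationSubring (AlgebraicClosure ℚ)) (hA : A.LiesOverPrime q)
    (φ : AlgebraicClosure ℚ ≃ₐ[ℚ] AlgebraicClosure ℚ) (hφ : A.IsFrobeniusAt φ q) :
    ∃ c : k, (curveResidual P.p P.freyCurveInt hcard hker ι).ρ φ
      = c • (1 : Module.End k (curveResidual P.p P.freyCurveInt hcard hker ι).V) := by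
  obtain ⟨c, hc⟩ := h A hA φ hφ
  exact ⟨ι (c : ZMod P.p), frobScalar_rho P.p P.freyCurveInt hcard hker ι φ c
    (scalar_transport (H104.freyCurve_eq_map P) P.p φ c hc)⟩

/-- **PIV.**  The pivot set of row HARD from the hypotheses of `HardMinScalarStatement`. -/
theorem isPivotSet_frey (Smin Piv : Finset ℕ)
    (hprime : ∀ q ∈ Piv, q.Prime) (hdisj : ∀ q ∈ Piv, q ∉ Smin)
    (hscal : ∀ q ∈ Piv, P.p ∣ q - 1 ∧ FrobScalarAt P q) :
    Fermat.Agent.S38.IA.IsPivotSet P.p (curveResidual P.p P.freyCurveInt hcard hker ι)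
      Smin Piv := by
  intro q hq
  exact ⟨hprime q hq, hdisj q hq, (hscal q hq).1,
    fun A hA φ hφ => frobScalar_frey P hcard hker ι q (hscal q hq).2 A hA φ hφ⟩

/-- The pivot set `Piv = {odd primes of L}` of a level `L` as in `HardMinScalarStatement`. -/
theorem isPivotSet_frey_level {L : ℕ} (Smin : Finset ℕ)
    (hSmin : ∀ q ∈ Smin, q = 2 ∨ q = P.p) (hpL : ¬ P.p ∣ L)
    (hscal : ∀ r : ℕ, r.Prime → r ≠ 2 → r ∣ L → P.p ∣ r - 1 ∧ FrobScalarAt P r) :
    Fermat.Agent.S38.IA.IsPivotSet P.p (curveResidual P.p P.freyCurveInt hcard hker ι)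
      Smin (L.primeFactors.erase 2) := by
  apply isPivotSet_frey
  · intro q hq
    exact Nat.prime_of_mem_primeFactors (Finset.mem_of_mem_erase hq)
  · intro q hq hqS
    have hq2 : q ≠ 2 := Finset.ne_of_mem_erase hq
    have hqL : q ∣ L := Nat.dvd_of_mem_primeFactors (Finset.mem_of_mem_erase hq)
    rcases hSmin q hqS with h | h
    · exact hq2 h
    · exact hpL (h ▸ hqL)
  · intro q hq
    exact hscal q (Nat.prime_of_mem_primeFactors (Finset.mem_of_mem_erase hq))
      (Finset.ne_of_mem_erase hq) (Nat.dvd_of_mem_primeFactors (Finset.mem_of_mem_erase hq))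

end Frey

end Fermat.Agent.Ribet.H723.Top
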