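import Fermat.Agent.S59.Arch.SpecRT
import Fermat.Agent.S59.G4.H109.PointsDVR

/-!
# Row HARD (row 37, hard case), cell TOP, leaf ROOTS  (helper723)

`S38.IA.IACoreStatement` wants a coefficient ring `𝒪` which contains the `p`-power roots of unity
of order dividing `q - 1` for the pivots `q`, while cell DICT of row S59
(`S59.Arch.DictStatement`, proved on main as `S59.H401.dict`) produces SOME coefficient ring.
This file enlarges the coefficient ring:

* `exists_ext_roots` : a complete DVR `O` of characteristic zero with finite residue field has a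
  finite extension `O'` of the same kind (the integral closure of `O` in the `n`-th cyclotomic
  field over `Frac O`, a complete DVR by `S59/G4/H109/PointsDVR.lean`) with a local homomorphism
  `O → O'`, containing a primitive `m`-th root of unity for every `m ∣ n`;
* `resFrobCond_of_charpoly_map` : the Frobenius condition `G4.ResFrobCond` is stable under
  extension of the residue field;
* `DictRootsStatement`, `dictRoots_of_dict : DictStatement → DictRootsStatement` : cell DICT with
  roots of unity of any prescribed order `n` in the coefficient ring.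

Mathlib + the two imported interface files only.
-/

set_option autoImplicit false
set_option linter.style.haveILetI false

open Polynomial IsLocalRing
open scoped WeierstrassCurve.Affine

namespace Fermat.Agent.Ribet.H723.Top

open Fermat.Agent.S59 Fermat.Agent.S59.Arch

/-- **Enlarging the coefficient ring by roots of unity.** -/
theorem exists_ext_roots (n : ℕ) (hn : 0 < n)
    (O : Type) [CommRing O] [IsDomain O] [IsDiscreteValuationRing O]
    [IsAdicComplete (maximalIdeal O) O] [Finite (ResidueField O)] [CharZero O] :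
    ∃ (O' : Type) (_ : CommRing O') (_ : IsDomain O') (_ : IsDiscreteValuationRing O')
      (_ : IsAdicComplete (maximalIdeal O') O') (_ : Finite (ResidueField O'))
      (_ : CharZero O') (e : O →+* O'), IsLocalHom e ∧
      ∀ m : ℕ, m ∣ n → ∃ ζ : O', IsPrimitiveRoot ζ m := by
  classical
  haveI : NeZero n := ⟨hn.ne'⟩
  haveI : CharZero (FractionRing O) := G4.H109.charZero_K O (FractionRing O)
  have hcyc : IsCyclotomicExtension {n} (FractionRing O)
      (CyclotomicField n (FractionRing O)) := inferInstance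
  haveI : FiniteDimensional (FractionRing O) (CyclotomicField n (FractionRing O)) :=
    IsCyclotomicExtension.finiteDimensional {n} (FractionRing O)
      (CyclotomicField n (FractionRing O))
  have hdvr : IsDiscreteValuationRing
      (G4.H109.intRingO O (CyclotomicField n (FractionRing O))) :=
    G4.H109.intRingO_isDiscreteValuationRing O (FractionRing O) _
  have hloc : IsLocalHom (algebraMap O
      (G4.H109.intRingO O (CyclotomicField n (FractionRing O)))) :=
    G4.H109.intRingO_isLocalHom O (FractionRing O) _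
  refine ⟨G4.H109.intRingO O (CyclotomicField n (FractionRing O)),
    inferInstance, inferInstance, hdvr,
    G4.H109.intRingO_isAdicComplete O (FractionRing O) _,
    G4.H109.intRingO_finite_residueField O (FractionRing O) _,
    G4.H109.intRingO_charZero O (FractionRing O) _,
    algebraMap O _, hloc, ?_⟩
  intro m hm
  obtain ⟨ζ, hζ⟩ := hcyc.exists_isPrimitiveRoot (Set.mem_singleton n) hn.ne'
  have hint : IsIntegral O ζ := by
    refine ⟨X ^ n - C 1, monic_X_pow_sub_C 1 hn.ne', ?_⟩
    rw [eval₂_sub, eval₂_pow, eval₂_X, eval₂_C, map_one, hζ.pow_eq_one, sub_self]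
  have hζ' : IsPrimitiveRoot
      (⟨ζ, hint⟩ : G4.H109.intRingO O (CyclotomicField n (FractionRing O))) n :=
    IsPrimitiveRoot.of_map_of_injective
      (f := (G4.H109.intRingO O (CyclotomicField n (FractionRing O))).val)
      (by simpa using hζ) Subtype.val_injective
  obtain ⟨a, ha⟩ := hm
  exact ⟨_, IsPrimitiveRoot.pow hn hζ' (by rw [ha, mul_comm])⟩

/-- The Frobenius condition is stable under extension of the residue field. -/
theorem resFrobCond_of_charpoly_map {N : ℕ} [NeZero N] {S : Set ℕ} {k k' : Type} [Field k]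
    [Field k'] (j : k →+* k') (ρ : ResidualGaloisRep k) (ρ' : ResidualGaloisRep k')
    (hρ : ∀ σ : AlgebraicClosure ℚ ≃ₐ[ℚ] AlgebraicClosure ℚ,
      LinearMap.charpoly (ρ'.ρ σ) = (LinearMap.charpoly (ρ.ρ σ)).map j)
    (θ : CuspForm.heckeAlgebra N 2 S →+* k) (h : G4.ResFrobCond ρ θ) :
    G4.ResFrobCond ρ' (j.comp θ) := by
  intro ℓ hℓ hℓN hℓS B hB σ hσ
  rw [hρ σ, h ℓ hℓ hℓN hℓS B hB σ hσ]
  simp only [Polynomial.map_add, Polynomial.map_sub, Polynomial.map_mul, Polynomial.map_pow,
    Polynomial.map_X, Polynomial.map_C, map_natCast, RingHom.comp_apply, Polynomial.map_natCast]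

/-- Characteristic polynomials of a base change of a residual representation. -/
theorem charpoly_baseChangeAlong_h723 {k k' : Type} [Field k] [Field k'] (ι : k →+* k')
    (ρ : ResidualGaloisRep k) (σ : AlgebraicClosure ℚ ≃ₐ[ℚ] AlgebraicClosure ℚ) :
    LinearMap.charpoly ((ρ.baseChangeAlong ι).ρ σ) = (LinearMap.charpoly (ρ.ρ σ)).map ι := by
  letI : Algebra k k' := ι.toAlgebra
  exact LinearMap.charpoly_baseChange (ρ.ρ σ) k'

/-- The residual representation of `W` over `k'` and over a subfield `k`: characteristic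
polynomials. -/
theorem charpoly_curveResidual_comp (p : ℕ) [Fact p.Prime] (W : WeierstrassCurve ℤ)
    (hcard : Nat.card (Submodule.torsionBy ℤ
      ((W.map (Int.castRingHom ℚ))⁄(AlgebraicClosure ℚ)).Point p) = p ^ 2)
    (hker : GaloisFactorsThroughFiniteLevel
      (WeierstrassCurve.Affine.Point.galoisRepModuleEnd (K := AlgebraicClosure ℚ) ℚ
        (W.map (Int.castRingHom ℚ)) p))
    {k k' : Type} [Field k] [Field k'] (ι : ZMod p →+* k) (ι' : ZMod p →+* k') (j : k →+* k')
    (σ : AlgebraicClosure ℚ ≃ₐ[ℚ] AlgebraicClosure ℚ) :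
    LinearMap.charpoly ((curveResidual p W hcard hker ι').ρ σ)
      = (LinearMap.charpoly ((curveResidual p W hcard hker ι).ρ σ)).map j := by
  have hι : ι' = j.comp ι := Subsingleton.elim _ _
  rw [show curveResidual p W hcard hker ι'
      = ((W.map (Int.castRingHom ℚ)).residualGaloisRepOf p hcard hker).baseChangeAlong ι' from rfl,
    show curveResidual p W hcard hker ι
      = ((W.map (Int.castRingHom ℚ)).residualGaloisRepOf p hcard hker).baseChangeAlong ι from rfl,
    charpoly_baseChangeAlong_h723, charpoly_baseChangeAlong_h723, Polynomial.map_map, hι]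

/-- **Cell DICT with roots of unity**: `S59.Arch.DictStatement` with the extra output that the
coefficient ring contains a primitive `m`-th root of unity for every `m ∣ n`. -/
def DictRootsStatement : Prop :=
  ∀ (p : ℕ) [Fact p.Prime] (_hp2 : p ≠ 2)
    (W : WeierstrassCurve ℤ) (_hΔ : W.Δ ≠ 0) (_hW : W.IsSemistableModel)
    (_hirr : W.ModRepIsIrreducible p)
    (hcard : Nat.card (Submodule.torsionBy ℤ
      ((W.map (Int.castRingHom ℚ))⁄(AlgebraicClosure ℚ)).Point p) = p ^ 2)
    (hker : GaloisFactorsThroughFiniteLevel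
      (WeierstrassCurve.Affine.Point.galoisRepModuleEnd (K := AlgebraicClosure ℚ) ℚ
        (W.map (Int.castRingHom ℚ)) p))
    (N : ℕ) [NeZero N] (S : Finset ℕ) (_hpS : p ∈ S) (_hS : ∀ q ∈ S, q.Prime)
    (_hNS : ∀ q : ℕ, q.Prime → q ∣ N → q ∈ S)
    (_hmod : W.IsResiduallyModularOfLevel p N) (n : ℕ) (_hn : 0 < n),
    ∃ (𝒪 : Type) (_ : CommRing 𝒪) (_ : IsDomain 𝒪) (_ : IsDiscreteValuationRing 𝒪)
      (_ : IsAdicComplete (maximalIdeal 𝒪) 𝒪) (_ : Finite (ResidueField 𝒪))
      (_ : CharZero 𝒪) (ι : ZMod p →+* ResidueField 𝒪)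
      (χ : CuspForm.heckeAlgebra N 2 (↑S : Set ℕ) →+* 𝒪),
      (p : 𝒪) ∈ maximalIdeal 𝒪 ∧
      (∀ f : (ZMod p)[X], f.Monic → f.natDegree = 2 →
        ∃ α β : ResidueField 𝒪, f.map ι = (X - C α) * (X - C β)) ∧
      G4.ResFrobCond (curveResidual p W hcard hker ι) ((residue 𝒪).comp χ) ∧
      ∀ m : ℕ, m ∣ n → ∃ ζ : 𝒪, IsPrimitiveRoot ζ m

/-- **ROOTS.**  Cell DICT implies cell DICT with roots of unity. -/
theorem dictRoots_of_dict (h : DictStatement) : DictRootsStatement := by
  intro p _ hp2 W hΔ hW hirr hcard hker N _ S hpS hS hNS hmod n hn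
  obtain ⟨O, i1, i2, i3, i4, i5, i6, ι, χ, hpO, hsplit, hfrob⟩ :=
    h p hp2 W hΔ hW hirr hcard hker N S hpS hS hNS hmod
  obtain ⟨O', j1, j2, j3, j4, j5, j6, e, he, hroots⟩ := exists_ext_roots n hn O
  have hpO' : (p : O') ∈ maximalIdeal O' := by
    rw [mem_maximalIdeal, mem_nonunits_iff] at hpO ⊢
    intro hu
    apply hpO
    have hu' : IsUnit (e (p : O)) := by rwa [map_natCast]
    exact he.map_nonunit _ hu'
  refine ⟨O', j1, j2, j3, j4, j5, j6, (ResidueField.map e).comp ι, e.comp χ, hpO', ?_, ?_,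
    hroots⟩
  · intro f hf hdeg
    obtain ⟨α, β, hαβ⟩ := hsplit f hf hdeg
    refine ⟨ResidueField.map e α, ResidueField.map e β, ?_⟩
    rw [← Polynomial.map_map, hαβ]
    simp only [Polynomial.map_mul, Polynomial.map_sub, Polynomial.map_X, Polynomial.map_C]
  · have hcomp : (residue O').comp (e.comp χ) = (ResidueField.map e).comp ((residue O).comp χ) := by
      ext t
      simp only [RingHom.comp_apply]
      rfl
    rw [hcomp]
    exact resFrobCond_of_charpoly_map (ResidueField.map e) _ _
      (fun σ => charpoly_curveResidual_comp p W hcard hker ι _ (ResidueField.map e) σ) _ hfrob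

/-! ### The shape of the hypothesis `_hroots` of `S38.IA.IACoreStatement` -/

/-- The order of the roots of unity needed for a pivot set: `∏_{q ∈ Piv} (q - 1)`. -/
def pivotOrder (Piv : Finset ℕ) : ℕ := ∏ q ∈ Piv, (q - 1)

theorem pivotOrder_pos (Piv : Finset ℕ) (hPiv : ∀ q ∈ Piv, q.Prime) : 0 < pivotOrder Piv :=
  Finset.prod_pos fun q hq => Nat.sub_pos_of_lt (hPiv q hq).one_lt

/-- Roots of unity of all orders dividing `pivotOrder Piv` give the hypothesis `_hroots` of
`S38.IA.IACoreStatement` (for any `p`). -/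
theorem hroots_of_pivotOrder {𝒪 : Type} [CommRing 𝒪] (p : ℕ) (Piv : Finset ℕ)
    (h : ∀ m : ℕ, m ∣ pivotOrder Piv → ∃ ζ : 𝒪, IsPrimitiveRoot ζ m) :
    ∀ q ∈ Piv, ∀ m : ℕ, p ^ m ∣ q - 1 → ∃ ζ : 𝒪, IsPrimitiveRoot ζ (p ^ m) :=
  fun _ hq _ hm => h _ (hm.trans (Finset.dvd_prod_of_mem (fun r => r - 1) hq))

/-- The output of cell DICT is residual modularity in the sense of row S59. -/
theorem resModular_of_char {𝒪 : Type} [CommRing 𝒪] [IsDomain 𝒪] [IsDiscreteValuationRing 𝒪]
    [IsAdicComplete (maximalIdeal 𝒪) 𝒪] (ρbar : ResidualGaloisRep (ResidueField 𝒪))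
    (N : ℕ) [hN : NeZero N] (S : Finset ℕ)
    (χ : CuspForm.heckeAlgebra N 2 (↑S : Set ℕ) →+* 𝒪)
    (h : G4.ResFrobCond ρbar ((residue 𝒪).comp χ)) : ResModular 𝒪 ρbar N S :=
  ⟨hN, (residue 𝒪).comp χ, h⟩

end Fermat.Agent.Ribet.H723.Top
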